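import Fermat.Agent.S11.H59.Descent

/-!
# Case II of Fermat's Last Theorem for a prime `p` such that `𝓞 (ℚ(ζ_p))` is a PID
and Kummer's lemma holds

We instantiate the abstract descent of `Fermat.Agent.S11.H59.Setting` with the ring of
integers of the `p`-th cyclotomic field.
-/

set_option autoImplicit false

open NumberField Polynomial

namespace Fermat.Agent.S11.H59

section

variable {p : ℕ} [hp : Fact p.Prime] {K : Type} [Field K] [NumberField K]
  [hK : IsCyclotomicExtension {p} ℚ K] {ζ : K} (hζ : IsPrimitiveRoot ζ p)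

include hζ in
/-- In the `p`-th cyclotomic ring of integers every `p`-th power is congruent to a rational
integer modulo `p`. -/
theorem exists_int_dvd_pow_sub (x : 𝓞 K) : ∃ n : ℤ, (p : 𝓞 K) ∣ x ^ p - (n : 𝓞 K) := by
  have htop := IsCyclotomicExtension.Rat.adjoin_singleton_eq_top hζ
  have hx : x ∈ Algebra.adjoin ℤ {hζ.toInteger} := htop ▸ Algebra.mem_top
  induction hx using Algebra.adjoin_induction with
  | mem y hy =>
    rw [Set.mem_singleton_iff] at hy
    refine ⟨1, ?_⟩
    rw [hy, hζ.toInteger_isPrimitiveRoot.pow_eq_one]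
    simp
  | algebraMap r =>
    refine ⟨r ^ p, ?_⟩
    simp
  | add x y _ _ hx hy =>
    obtain ⟨n, x', hn⟩ := hx
    obtain ⟨m, y', hm⟩ := hy
    obtain ⟨r, hr⟩ := exists_add_pow_prime_eq hp.out x y
    refine ⟨n + m, x' + y' + x * y * r, ?_⟩
    push_cast
    linear_combination hr + hn + hm
  | mul x y _ _ hx hy =>
    obtain ⟨n, x', hn⟩ := hx
    obtain ⟨m, y', hm⟩ := hy
    refine ⟨n * m, x' * y ^ p + n * y', ?_⟩
    push_cast
    linear_combination y ^ p * hn + (n : 𝓞 K) * hm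

/-- The `Setting` of the abstract descent holds in the `p`-th cyclotomic ring of integers,
assuming Kummer's lemma. -/
theorem setting (hp2 : p ≠ 2)
    (kummer : ∀ (u : (𝓞 K)ˣ) (n : ℤ), (p : 𝓞 K) ∣ (u : 𝓞 K) - (n : 𝓞 K) → ∃ v : (𝓞 K)ˣ, u = v ^ p) :
    Setting (𝓞 K) p hζ.toInteger where
  prime := hp.out
  ne_two := hp2
  root := hζ.toInteger_isPrimitiveRoot
  lam_prime := hζ.zeta_sub_one_prime'
  assoc := IsCyclotomicExtension.Rat.associated_zeta_sub_one_pow_prime p hζ
  card := by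
    rw [hζ.card_quotient_toInteger_sub_one, hζ.norm_toInteger_sub_one_of_prime_ne_two' hp2]
    simp
  pow_cong := exists_int_dvd_pow_sub hζ
  dvd_int := fun _ h => (IsCyclotomicExtension.Rat.zeta_sub_one_dvd_intCast_iff' p hζ).1 h
  kummer := kummer

end

/-- **Case II of Fermat's Last Theorem** for an odd prime `p` such that the ring of integers of
the `p`-th cyclotomic field is a PID and satisfies Kummer's lemma: `p ∣ c`. -/
theorem caseII {p : ℕ} [Fact p.Prime] (hp5 : 5 ≤ p) (K : Type) [Field K] [NumberField K]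
    [IsCyclotomicExtension {p} ℚ K] [IsPrincipalIdealRing (𝓞 K)]
    (kummer : ∀ (u : (𝓞 K)ˣ) (n : ℤ), (p : 𝓞 K) ∣ (u : 𝓞 K) - (n : 𝓞 K) → ∃ v : (𝓞 K)ˣ, u = v ^ p)
    {a b c : ℤ} (h : a ^ p + b ^ p = c ^ p) (hab : IsCoprime a b) (hc : c ≠ 0)
    (hpc : (p : ℤ) ∣ c) : False :=
  (setting (IsCyclotomicExtension.zeta_spec p ℚ K) (by omega) kummer).caseII_int h hab hc hpc

/-- **Case II of Fermat's Last Theorem**, symmetric form: `p ∣ a * b * c`. -/
theorem caseII' {p : ℕ} [Fact p.Prime] (hp5 : 5 ≤ p) (K : Type) [Field K] [NumberField K]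
    [IsCyclotomicExtension {p} ℚ K] [IsPrincipalIdealRing (𝓞 K)]
    (kummer : ∀ (u : (𝓞 K)ˣ) (n : ℤ), (p : 𝓞 K) ∣ (u : 𝓞 K) - (n : 𝓞 K) → ∃ v : (𝓞 K)ˣ, u = v ^ p)
    {a b c : ℤ} (h : a ^ p + b ^ p = c ^ p) (hab : IsCoprime a b) (habc : a * b * c ≠ 0)
    (hpabc : (p : ℤ) ∣ a * b * c) : False := by
  have hp : p.Prime := Fact.out
  have hp0 : 0 < p := hp.pos
  have hodd : Odd p := hp.odd_of_ne_two (by omega)
  have hpint : Prime (p : ℤ) := Nat.prime_iff_prime_int.1 hp
  have ha0 : a ≠ 0 := fun h0 => habc (by simp [h0])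
  have hb0 : b ≠ 0 := fun h0 => habc (by simp [h0])
  have hc0 : c ≠ 0 := fun h0 => habc (by simp [h0])
  -- `c` is coprime to `a` and to `b`
  have hcb : IsCoprime c b := by
    have h1 : IsCoprime (a ^ p) b := hab.pow_left
    have h2 : a ^ p = c ^ p + b * (-b ^ (p - 1)) := by
      have h3 : b * b ^ (p - 1) = b ^ p := by rw [← pow_succ', Nat.sub_add_cancel hp0]
      linear_combination h + h3
    rw [h2] at h1
    exact (IsCoprime.pow_left_iff hp0).1 h1.of_add_mul_left_left
  have hca : IsCoprime c a := by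
    have h1 : IsCoprime (b ^ p) a := hab.symm.pow_left
    have h2 : b ^ p = c ^ p + a * (-a ^ (p - 1)) := by
      have h3 : a * a ^ (p - 1) = a ^ p := by rw [← pow_succ', Nat.sub_add_cancel hp0]
      linear_combination h + h3
    rw [h2] at h1
    exact (IsCoprime.pow_left_iff hp0).1 h1.of_add_mul_left_left
  rcases hpint.dvd_or_dvd hpabc with hpab | hpc
  · rcases hpint.dvd_or_dvd hpab with hpa | hpb
    · -- `c ^ p + (-b) ^ p = a ^ p`
      refine caseII hp5 K kummer (a := c) (b := -b) (c := a) ?_ hcb.neg_right ha0 hpa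
      rw [hodd.neg_pow]
      linear_combination -h
    · -- `c ^ p + (-a) ^ p = b ^ p`
      refine caseII hp5 K kummer (a := c) (b := -a) (c := b) ?_ hca.neg_right hb0 hpb
      rw [hodd.neg_pow]
      linear_combination -h
  · exact caseII hp5 K kummer h hab hc0 hpc

end Fermat.Agent.S11.H59
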