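import Mathlib

/-!
# Case II of Fermat's Last Theorem for a regular prime: the abstract descent

We work in an abstract Bézout domain `R` containing a primitive `p`-th root of unity `ζ`
such that `ζ - 1` is a prime element, and satisfying a short list of arithmetic facts
(`Setting`).  The main result `Setting.no_solution` says that the generalised Fermat
equation `a ^ p + b ^ p = u * c ^ p` has no solution with `ζ - 1 ∣ c`, `c ≠ 0`,
`ζ - 1 ∤ a`, `ζ - 1 ∤ b`, `a`, `b` coprime.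
-/

set_option autoImplicit false

open Polynomial

namespace Fermat.Agent.S11.H59

/-- The arithmetic facts about `R = 𝓞 (ℚ(ζ_p))` used by the descent. -/
structure Setting (R : Type) [CommRing R] [IsDomain R] (p : ℕ) (ζ : R) : Prop where
  prime : p.Prime
  ne_two : p ≠ 2
  root : IsPrimitiveRoot ζ p
  lam_prime : Prime (ζ - 1)
  assoc : Associated ((ζ - 1) ^ (p - 1)) (p : R)
  card : Nat.card (R ⧸ Ideal.span {ζ - 1}) = p
  pow_cong : ∀ x : R, ∃ n : ℤ, (p : R) ∣ x ^ p - (n : R)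
  dvd_int : ∀ n : ℤ, (ζ - 1) ∣ (n : R) → (p : ℤ) ∣ n
  kummer : ∀ (u : Rˣ) (n : ℤ), (p : R) ∣ (u : R) - (n : R) → ∃ v : Rˣ, u = v ^ p

namespace Setting

variable {R : Type} [CommRing R] [IsDomain R] {p : ℕ} {ζ : R}

lemma odd (S : Setting R p ζ) : Odd p := S.prime.odd_of_ne_two S.ne_two

lemma three_le (S : Setting R p ζ) : 3 ≤ p := by
  have h2 := S.prime.two_le
  have := S.ne_two
  omega

lemma pos (S : Setting R p ζ) : 0 < p := S.prime.pos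

lemma lam_ne_zero (S : Setting R p ζ) : ζ - 1 ≠ 0 := S.lam_prime.ne_zero

lemma mem_roots_iff (S : Setting R p ζ) {η : R} : η ∈ nthRootsFinset p (1 : R) ↔ η ^ p = 1 :=
  mem_nthRootsFinset S.pos 1

lemma one_mem (S : Setting R p ζ) : (1 : R) ∈ nthRootsFinset p (1 : R) :=
  S.mem_roots_iff.2 (one_pow p)

lemma zeta_mem (S : Setting R p ζ) : ζ ∈ nthRootsFinset p (1 : R) :=
  S.mem_roots_iff.2 S.root.pow_eq_one

lemma isUnit_of_mem (S : Setting R p ζ) {η : R} (hη : η ∈ nthRootsFinset p (1 : R)) : IsUnit η :=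
  IsUnit.of_pow_eq_one (S.mem_roots_iff.1 hη) S.pos.ne'

/-- For distinct `p`-th roots of unity, `η₁ - η₂ = (ζ - 1) * v` with `v` a unit. -/
lemma exists_unit_sub (S : Setting R p ζ) {η₁ η₂ : R} (h₁ : η₁ ∈ nthRootsFinset p (1 : R))
    (h₂ : η₂ ∈ nthRootsFinset p (1 : R)) (hne : η₁ ≠ η₂) :
    ∃ v : Rˣ, η₁ - η₂ = (ζ - 1) * v := by
  obtain ⟨v, hv⟩ := S.root.nthRootsFinset_pairwise_associated_sub_one_sub_of_prime S.prime h₁ h₂ hne
  exact ⟨v, hv.symm⟩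

/-- `ζ - 1` divides `η₁ - η₂` for `p`-th roots of unity. -/
lemma lam_dvd_sub (S : Setting R p ζ) {η₁ η₂ : R} (h₁ : η₁ ∈ nthRootsFinset p (1 : R))
    (h₂ : η₂ ∈ nthRootsFinset p (1 : R)) : ζ - 1 ∣ η₁ - η₂ :=
  S.root.sub_one_dvd_sub S.prime h₁ h₂

lemma factorization (S : Setting R p ζ) (a b : R) :
    a ^ p + b ^ p = ∏ η ∈ nthRootsFinset p (1 : R), (a + η * b) :=
  S.root.pow_add_pow_eq_prod_add_mul a b S.odd

/-- If `ζ - 1` divides `a ^ p + b ^ p` then it divides every factor `a + η * b`. -/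
lemma lam_dvd_factor (S : Setting R p ζ) {a b : R} (h : ζ - 1 ∣ a ^ p + b ^ p) {η : R}
    (hη : η ∈ nthRootsFinset p (1 : R)) : ζ - 1 ∣ a + η * b := by
  rw [S.factorization, S.lam_prime.dvd_finsetProd_iff] at h
  obtain ⟨η₁, hη₁, h₁⟩ := h
  have h2 : a + η * b = (a + η₁ * b) + (η - η₁) * b := by ring
  rw [h2]
  exact dvd_add h₁ (Dvd.dvd.mul_right (S.lam_dvd_sub hη hη₁) b)

/-- Among the factors `a + η * b` at least one is divisible by `(ζ - 1) ^ 2`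
(counting argument in the residue field of cardinality `p`). -/
lemma exists_sq_dvd_factor (S : Setting R p ζ) {a b : R} (hb : ¬ ζ - 1 ∣ b)
    (h : ζ - 1 ∣ a ^ p + b ^ p) :
    ∃ η₀ ∈ nthRootsFinset p (1 : R), (ζ - 1) ^ 2 ∣ a + η₀ * b := by
  classical
  have key : ∀ η : R, ∃ q : R, η ∈ nthRootsFinset p (1 : R) → a + η * b = (ζ - 1) * q := by
    intro η
    by_cases hη : η ∈ nthRootsFinset p (1 : R)
    · obtain ⟨q, hq⟩ := S.lam_dvd_factor h hη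
      exact ⟨q, fun _ => hq⟩
    · exact ⟨0, fun h' => absurd h' hη⟩
  choose q hq using key
  have hfin : Finite (R ⧸ Ideal.span {ζ - 1}) :=
    Nat.finite_of_card_ne_zero (by rw [S.card]; exact S.pos.ne')
  let _ : Fintype (R ⧸ Ideal.span {ζ - 1}) := Fintype.ofFinite _
  let f : R → R ⧸ Ideal.span {ζ - 1} := fun η => Ideal.Quotient.mk _ (q η)
  have hinj : Set.InjOn f (nthRootsFinset p (1 : R) : Set R) := by
    intro η₁ h₁ η₂ h₂ hf
    by_contra hne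
    have hdvd : ζ - 1 ∣ q η₁ - q η₂ := by
      rw [← Ideal.mem_span_singleton, ← Ideal.Quotient.eq]
      exact hf
    obtain ⟨t, ht⟩ := hdvd
    obtain ⟨v, hv⟩ := S.exists_unit_sub h₁ h₂ hne
    have e1 : (ζ - 1) * (v * b) = (ζ - 1) * ((ζ - 1) * t) := by
      have := hq η₁ h₁
      have := hq η₂ h₂
      calc (ζ - 1) * (v * b) = (η₁ - η₂) * b := by rw [hv]; ring
        _ = (a + η₁ * b) - (a + η₂ * b) := by ring
        _ = (ζ - 1) * (q η₁ - q η₂) := by rw [hq η₁ h₁, hq η₂ h₂]; ring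
        _ = (ζ - 1) * ((ζ - 1) * t) := by rw [ht]
    have e2 : (v : R) * b = (ζ - 1) * t := mul_left_cancel₀ S.lam_ne_zero e1
    exact hb ((Units.dvd_mul_left).1 ⟨t, e2⟩)
  have hcard : (Finset.image f (nthRootsFinset p (1 : R))).card =
      Fintype.card (R ⧸ Ideal.span {ζ - 1}) := by
    rw [Finset.card_image_of_injOn hinj, S.root.card_nthRootsFinset, ← Nat.card_eq_fintype_card,
      S.card]
  have huniv : Finset.image f (nthRootsFinset p (1 : R)) = Finset.univ :=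
    Finset.eq_univ_of_card _ hcard
  have h0 : (0 : R ⧸ Ideal.span {ζ - 1}) ∈ Finset.image f (nthRootsFinset p (1 : R)) := by
    rw [huniv]; exact Finset.mem_univ _
  obtain ⟨η₀, hη₀, hf0⟩ := Finset.mem_image.1 h0
  refine ⟨η₀, hη₀, ?_⟩
  have hdvd : ζ - 1 ∣ q η₀ := by
    rw [← Ideal.mem_span_singleton, ← Ideal.Quotient.eq_zero_iff_mem]
    exact hf0
  obtain ⟨t, ht⟩ := hdvd
  exact ⟨t, by rw [hq η₀ hη₀, ht]; ring⟩

lemma lam_dvd_p (S : Setting R p ζ) : ζ - 1 ∣ (p : R) := by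
  have h1 : ζ - 1 ∣ (ζ - 1) ^ (p - 1) := dvd_pow_self _ (by have := S.three_le; omega)
  exact h1.trans S.assoc.dvd

lemma p_dvd_lam_pow (S : Setting R p ζ) : (p : R) ∣ (ζ - 1) ^ p := by
  have h1 : (ζ - 1) ^ (p - 1) ∣ (ζ - 1) ^ p := pow_dvd_pow _ (Nat.sub_le p 1)
  exact S.assoc.symm.dvd.trans h1

lemma zeta_ne_one (S : Setting R p ζ) : ζ ≠ 1 := S.root.ne_one S.prime.one_lt

lemma isUnit_one_add_zeta (S : Setting R p ζ) : IsUnit (1 + ζ) := by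
  have h := S.root.geom_sum_isUnit (j := 2) S.prime.two_le
    ((Nat.coprime_primes Nat.prime_two S.prime).2 (Ne.symm S.ne_two))
  simpa [Finset.sum_range_succ] using h

/-- The descent step, assuming `(ζ - 1) ^ 2 ∣ a + b`. -/
lemma descent_of_sq_dvd [IsBezout R] (S : Setting R p ζ) {M : ℕ} (hM : 1 ≤ M) {a b c' : R}
    {u : Rˣ} (hb : ¬ ζ - 1 ∣ b) (hc' : ¬ ζ - 1 ∣ c') (hab : IsCoprime a b)
    (H : a ^ p + b ^ p = u * ((ζ - 1) ^ M * c') ^ p) (h2 : (ζ - 1) ^ 2 ∣ a + b) :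
    2 ≤ M ∧ ∃ (a₁ b₁ c₁ : R) (u₁ : Rˣ), ¬ ζ - 1 ∣ a₁ ∧ ¬ ζ - 1 ∣ b₁ ∧ ¬ ζ - 1 ∣ c₁ ∧
      IsCoprime a₁ b₁ ∧ a₁ ^ p + b₁ ^ p = u₁ * ((ζ - 1) ^ (M - 1) * c₁) ^ p := by
  classical
  have hlp := S.lam_prime
  have hl0 := S.lam_ne_zero
  have hp0 := S.pos
  have hp3 := S.three_le
  -- `ζ - 1` divides `a ^ p + b ^ p`
  have hdvd : ζ - 1 ∣ a ^ p + b ^ p := by
    rw [H]
    have h1 : ζ - 1 ∣ ((ζ - 1) ^ M * c') ^ p :=
      dvd_pow (Dvd.dvd.mul_right (dvd_pow_self (ζ - 1) (by omega)) c') hp0.ne'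
    exact Dvd.dvd.mul_left h1 _
  -- the roots of unity different from `1`
  set T := (nthRootsFinset p (1 : R)).erase 1 with hT
  have hTcard : T.card = p - 1 := by
    rw [hT, Finset.card_erase_of_mem S.one_mem, S.root.card_nthRootsFinset]
  -- cofactors `w η` for `η ∈ T`
  have key : ∀ η : R, ∃ w : R, η ∈ T → (a + η * b = (ζ - 1) * w ∧ ¬ ζ - 1 ∣ w) := by
    intro η
    by_cases hη : η ∈ T
    · have hη' := Finset.mem_of_mem_erase hη
      have hη1 : η ≠ 1 := Finset.ne_of_mem_erase hη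
      obtain ⟨w, hw⟩ := S.lam_dvd_factor hdvd hη'
      refine ⟨w, fun _ => ⟨hw, fun hlw => ?_⟩⟩
      obtain ⟨v, hv⟩ := S.exists_unit_sub hη' S.one_mem hη1
      obtain ⟨t, ht⟩ := hlw
      obtain ⟨s, hs⟩ := h2
      have e1 : (ζ - 1) * (v * b) = (ζ - 1) * ((ζ - 1) * (t - s)) := by
        calc (ζ - 1) * (v * b) = (η - 1) * b := by rw [hv]; ring
          _ = (a + η * b) - (a + b) := by ring
          _ = (ζ - 1) * ((ζ - 1) * (t - s)) := by rw [hw, ht, hs]; ring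
      have e2 : (v : R) * b = (ζ - 1) * (t - s) := mul_left_cancel₀ hl0 e1
      exact hb ((Units.dvd_mul_left).1 ⟨t - s, e2⟩)
    · exact ⟨0, fun h' => absurd h' hη⟩
  choose w hw using key
  set W := ∏ η ∈ T, w η with hW
  have hWndvd : ¬ ζ - 1 ∣ W := by
    rw [hW, hlp.dvd_finsetProd_iff]
    rintro ⟨η, hη, hd⟩
    exact (hw η hη).2 hd
  have hprod : (a + b) * ((ζ - 1) ^ (p - 1) * W) = u * ((ζ - 1) ^ M * c') ^ p := by
    rw [← H, S.factorization, ← Finset.mul_prod_erase _ _ S.one_mem, one_mul]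
    congr 1
    rw [← hTcard, ← Finset.prod_const, hW, ← Finset.prod_mul_distrib]
    exact Finset.prod_congr rfl (fun η hη => (hw η hη).1.symm)
  obtain ⟨k, hk⟩ : ∃ k, M * p = k + (p - 1) :=
    ⟨M * p - (p - 1), (Nat.sub_add_cancel
      (Nat.le_trans (Nat.sub_le p 1) (Nat.le_mul_of_pos_left p hM))).symm⟩
  have e3 : (a + b) * W = (ζ - 1) ^ k * (u * c' ^ p) := by
    apply mul_right_cancel₀ (pow_ne_zero (p - 1) hl0)
    calc (a + b) * W * (ζ - 1) ^ (p - 1) = (a + b) * ((ζ - 1) ^ (p - 1) * W) := by ring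
      _ = u * ((ζ - 1) ^ M * c') ^ p := hprod
      _ = (ζ - 1) ^ k * (u * c' ^ p) * (ζ - 1) ^ (p - 1) := by
        rw [mul_pow, ← pow_mul, hk, pow_add]; ring
  obtain ⟨w₁, hw₁⟩ : (ζ - 1) ^ k ∣ a + b := hlp.pow_dvd_of_dvd_mul_right k hWndvd ⟨_, e3⟩
  have e4 : w₁ * W = u * c' ^ p := by
    apply mul_left_cancel₀ (pow_ne_zero k hl0)
    rw [← mul_assoc, ← hw₁, e3]
  have hw₁ndvd : ¬ ζ - 1 ∣ w₁ := by
    intro hd
    have h1 : ζ - 1 ∣ ↑u * c' ^ p := e4 ▸ Dvd.dvd.mul_right hd W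
    rcases hlp.dvd_or_dvd h1 with h | h
    · exact hlp.not_isUnit (isUnit_of_dvd_unit h u.isUnit)
    · exact hc' (hlp.dvd_of_dvd_pow h)
  -- `2 ≤ k`
  have hk2 : 2 ≤ k := by
    by_contra hlt
    have hk1 : k = 1 := by
      have h1 : p ≤ M * p := Nat.le_mul_of_pos_left p hM
      omega
    rw [hk1, pow_one] at hw₁
    obtain ⟨s, hs⟩ := h2
    have e5 : (ζ - 1) * w₁ = (ζ - 1) * ((ζ - 1) * s) := by rw [← hw₁, hs]; ring
    exact hw₁ndvd ⟨s, mul_left_cancel₀ hl0 e5⟩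
  have hM2 : 2 ≤ M := by
    by_contra hlt
    have hM1 : M = 1 := by omega
    rw [hM1, one_mul] at hk
    omega
  refine ⟨hM2, ?_⟩
  obtain ⟨N, rfl⟩ : ∃ N, M = N + 1 := ⟨M - 1, by omega⟩
  have hN : 1 ≤ N := by omega
  have hkN : k = N * p + 1 := by
    rw [add_mul, one_mul] at hk
    omega
  rw [hkN] at hw₁
  -- coprimality of the cofactors
  have hcop1 : ∀ η ∈ T, IsCoprime w₁ (w η) := by
    intro η hη
    have hη' := Finset.mem_of_mem_erase hη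
    have hη1 : η ≠ 1 := Finset.ne_of_mem_erase hη
    obtain ⟨v, hv⟩ := S.exists_unit_sub hη' S.one_mem hη1
    obtain ⟨r, s, hrs⟩ := hab
    have hb' : (v : R) * b = w η - (ζ - 1) ^ (N * p) * w₁ := by
      apply mul_left_cancel₀ hl0
      calc (ζ - 1) * (v * b) = (a + η * b) - (a + b) := by rw [← mul_assoc, ← hv]; ring
        _ = (ζ - 1) * (w η - (ζ - 1) ^ (N * p) * w₁) := by
          rw [(hw η hη).1, hw₁, pow_succ]; ring
    have ha' : (v : R) * a = η * (ζ - 1) ^ (N * p) * w₁ - w η := by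
      apply mul_left_cancel₀ hl0
      calc (ζ - 1) * (v * a) = η * (a + b) - (a + η * b) := by rw [← mul_assoc, ← hv]; ring
        _ = (ζ - 1) * (η * (ζ - 1) ^ (N * p) * w₁ - w η) := by
          rw [(hw η hη).1, hw₁, pow_succ]; ring
    refine ⟨↑v⁻¹ * (r * η * (ζ - 1) ^ (N * p) - s * (ζ - 1) ^ (N * p)), ↑v⁻¹ * (s - r), ?_⟩
    calc ↑v⁻¹ * (r * η * (ζ - 1) ^ (N * p) - s * (ζ - 1) ^ (N * p)) * w₁ + ↑v⁻¹ * (s - r) * w η
        = ↑v⁻¹ * (r * (η * (ζ - 1) ^ (N * p) * w₁ - w η)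
            + s * (w η - (ζ - 1) ^ (N * p) * w₁)) := by ring
      _ = ↑v⁻¹ * (r * (v * a) + s * (v * b)) := by rw [ha', hb']
      _ = (↑v⁻¹ * v) * (r * a + s * b) := by ring
      _ = 1 := by rw [v.inv_mul, hrs, one_mul]
  have hcop2 : ∀ η₁ ∈ T, ∀ η₂ ∈ T, η₁ ≠ η₂ → IsCoprime (w η₁) (w η₂) := by
    intro η₁ h₁ η₂ h₂ hne
    obtain ⟨v, hv⟩ := S.exists_unit_sub (Finset.mem_of_mem_erase h₁)
      (Finset.mem_of_mem_erase h₂) hne
    obtain ⟨r, s, hrs⟩ := hab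
    have hb' : (v : R) * b = w η₁ - w η₂ := by
      apply mul_left_cancel₀ hl0
      calc (ζ - 1) * (v * b) = (a + η₁ * b) - (a + η₂ * b) := by rw [← mul_assoc, ← hv]; ring
        _ = (ζ - 1) * (w η₁ - w η₂) := by rw [(hw η₁ h₁).1, (hw η₂ h₂).1]; ring
    have ha' : (v : R) * a = η₁ * w η₂ - η₂ * w η₁ := by
      apply mul_left_cancel₀ hl0
      calc (ζ - 1) * (v * a) = η₁ * (a + η₂ * b) - η₂ * (a + η₁ * b) := by
            rw [← mul_assoc, ← hv]; ring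
        _ = (ζ - 1) * (η₁ * w η₂ - η₂ * w η₁) := by rw [(hw η₁ h₁).1, (hw η₂ h₂).1]; ring
    refine ⟨↑v⁻¹ * (s - r * η₂), ↑v⁻¹ * (r * η₁ - s), ?_⟩
    calc ↑v⁻¹ * (s - r * η₂) * w η₁ + ↑v⁻¹ * (r * η₁ - s) * w η₂
        = ↑v⁻¹ * (r * (η₁ * w η₂ - η₂ * w η₁) + s * (w η₁ - w η₂)) := by ring
      _ = ↑v⁻¹ * (r * (v * a) + s * (v * b)) := by rw [ha', hb']
      _ = (↑v⁻¹ * v) * (r * a + s * b) := by ring
      _ = 1 := by rw [v.inv_mul, hrs, one_mul]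
  -- `p`-th powers
  have hpow1 : ∃ d, Associated (d ^ p) w₁ := by
    apply exists_associated_pow_of_associated_pow_mul (b := W) (c := c')
      (IsCoprime.prod_right hcop1)
    rw [e4]
    exact ⟨u, by ring⟩
  have hpowT : ∀ η ∈ T, ∃ d, Associated (d ^ p) (w η) := by
    intro η hη
    have hsplit : w η * (w₁ * ∏ η' ∈ T.erase η, w η') = u * c' ^ p := by
      rw [← e4, hW, ← Finset.mul_prod_erase T w hη]; ring
    apply exists_associated_pow_of_associated_pow_mul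
      (b := w₁ * ∏ η' ∈ T.erase η, w η') (c := c')
    · apply IsCoprime.mul_right (hcop1 η hη).symm
      apply IsCoprime.prod_right
      intro η' hη'
      exact hcop2 η hη η' (Finset.mem_of_mem_erase hη') (Finset.ne_of_mem_erase hη').symm
    · rw [hsplit]
      exact ⟨u, by ring⟩
  -- the two roots `ζ` and `ζ' = ζ ^ (p - 1)`
  have hζζ' : ζ * ζ ^ (p - 1) = 1 := by
    rw [← pow_succ', Nat.sub_add_cancel hp0, S.root.pow_eq_one]
  have hζT : ζ ∈ T := Finset.mem_erase.2 ⟨S.zeta_ne_one, S.zeta_mem⟩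
  have hζ'ne : ζ ^ (p - 1) ≠ 1 := S.root.pow_ne_one_of_pos_of_lt (by omega) (by omega)
  have hζ'T : ζ ^ (p - 1) ∈ T := by
    refine Finset.mem_erase.2 ⟨hζ'ne, S.mem_roots_iff.2 ?_⟩
    rw [← pow_mul, mul_comm, pow_mul, S.root.pow_eq_one, one_pow]
  have hζne : ζ ≠ ζ ^ (p - 1) := by
    intro h
    have h1 : ζ ^ 2 = 1 := by rw [pow_two]; nth_rewrite 2 [h]; exact hζζ'
    exact S.root.pow_ne_one_of_pos_of_lt (by norm_num) (by omega) h1
  obtain ⟨d, ε, hd⟩ := hpowT ζ hζT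
  obtain ⟨d', ε', hd'⟩ := hpowT (ζ ^ (p - 1)) hζ'T
  obtain ⟨d₁, ε₁, hd₁⟩ := hpow1
  obtain ⟨ζu, hζu⟩ := S.isUnit_of_mem S.zeta_mem
  obtain ⟨ηu, hηu⟩ := S.isUnit_one_add_zeta
  -- the three term relation
  have hrel : w ζ + ζ * w (ζ ^ (p - 1)) = (1 + ζ) * (((ζ - 1) ^ N) ^ p * w₁) := by
    apply mul_left_cancel₀ hl0
    calc (ζ - 1) * (w ζ + ζ * w (ζ ^ (p - 1)))
        = (ζ - 1) * w ζ + ζ * ((ζ - 1) * w (ζ ^ (p - 1))) := by ring
      _ = (a + ζ * b) + ζ * (a + ζ ^ (p - 1) * b) := by rw [(hw ζ hζT).1, (hw _ hζ'T).1]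
      _ = (1 + ζ) * (a + b) + (ζ * ζ ^ (p - 1) - 1) * b := by ring
      _ = (1 + ζ) * (a + b) := by rw [hζζ']; ring
      _ = (ζ - 1) * ((1 + ζ) * (((ζ - 1) ^ N) ^ p * w₁)) := by
        rw [hw₁, pow_succ, ← pow_mul]; ring
  set u' : Rˣ := ζu * ε' * ε⁻¹ with hu'
  set u₁ : Rˣ := ηu * ε₁ * ε⁻¹ with hu₁
  have hmain : d ^ p + u' * d' ^ p = u₁ * ((ζ - 1) ^ N * d₁) ^ p := by
    have hεε : (ε : R) * ↑ε⁻¹ = 1 := ε.mul_inv
    calc d ^ p + u' * d' ^ p = (d ^ p * ε + ζ * (d' ^ p * ε')) * ↑ε⁻¹ := by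
          rw [hu']; push_cast; rw [hζu]
          linear_combination (-(d ^ p)) * hεε
      _ = (w ζ + ζ * w (ζ ^ (p - 1))) * ↑ε⁻¹ := by rw [hd, hd']
      _ = (1 + ζ) * (((ζ - 1) ^ N) ^ p * (d₁ ^ p * ε₁)) * ↑ε⁻¹ := by rw [hrel, hd₁]
      _ = u₁ * ((ζ - 1) ^ N * d₁) ^ p := by
          rw [hu₁]; push_cast; rw [hηu]; ring
  -- the cofactors are prime to `ζ - 1`
  have hdn : ¬ ζ - 1 ∣ d := fun h =>
    (hw ζ hζT).2 (hd ▸ Dvd.dvd.mul_right (dvd_pow h hp0.ne') _)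
  have hd'n : ¬ ζ - 1 ∣ d' := fun h =>
    (hw _ hζ'T).2 (hd' ▸ Dvd.dvd.mul_right (dvd_pow h hp0.ne') _)
  have hd₁n : ¬ ζ - 1 ∣ d₁ := fun h =>
    hw₁ndvd (hd₁ ▸ Dvd.dvd.mul_right (dvd_pow h hp0.ne') _)
  -- `u'` is congruent to an integer modulo `p`
  have hpdvd : (p : R) ∣ d ^ p + u' * d' ^ p := by
    rw [hmain, mul_pow, ← pow_mul]
    have h1 : (ζ - 1) ^ p ∣ (ζ - 1) ^ (N * p) := pow_dvd_pow _ (Nat.le_mul_of_pos_left p hN)
    exact Dvd.dvd.mul_left (Dvd.dvd.mul_right (S.p_dvd_lam_pow.trans h1) _) _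
  obtain ⟨n₁, hn₁⟩ := S.pow_cong d
  obtain ⟨n₂, hn₂⟩ := S.pow_cong d'
  have hn₂ndvd : ¬ (p : ℤ) ∣ n₂ := by
    intro h
    have h1 : (p : R) ∣ (n₂ : R) := by
      obtain ⟨m, rfl⟩ := h
      exact ⟨(m : R), by push_cast; ring⟩
    have h2' : (p : R) ∣ d' ^ p := by
      have := dvd_add hn₂ h1
      rwa [sub_add_cancel] at this
    exact hd'n (hlp.dvd_of_dvd_pow (S.lam_dvd_p.trans h2'))
  obtain ⟨s, t, hst⟩ : IsCoprime (p : ℤ) n₂ :=
    (Nat.prime_iff_prime_int.1 S.prime).coprime_iff_not_dvd.2 hn₂ndvd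
  have hst' : (s : R) * (p : R) + (t : R) * (n₂ : R) = 1 := by exact_mod_cast congrArg (Int.cast : ℤ → R) hst
  have hcong : (p : R) ∣ (u' : R) - ((-(t * n₁) : ℤ) : R) := by
    obtain ⟨x₁, hx₁⟩ := hn₁
    obtain ⟨x₂, hx₂⟩ := hn₂
    obtain ⟨x₃, hx₃⟩ := hpdvd
    refine ⟨u' * s + t * (x₃ - u' * x₂ - x₁), ?_⟩
    push_cast
    linear_combination (-(u' : R)) * hst' + (t : R) * hx₃ - (t : R) * (u' : R) * hx₂ - (t : R) * hx₁
  obtain ⟨v, hv⟩ := S.kummer u' (-(t * n₁)) hcong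
  refine ⟨d, v * d', d₁, u₁, hdn, ?_, hd₁n, ?_, ?_⟩
  · exact fun h => hd'n ((Units.dvd_mul_left).1 h)
  · have h1 : IsCoprime (d ^ p * ε) (d' ^ p * ε') := by
      rw [hd, hd']; exact hcop2 ζ hζT _ hζ'T hζne
    have h2' : IsCoprime (d ^ p) (d' ^ p) := h1.of_mul_left_left.of_mul_right_left
    have h3 : IsCoprime d d' := (IsCoprime.pow_iff hp0 hp0).1 h2'
    exact (isCoprime_mul_unit_left_right v.isUnit d d').2 h3
  · rw [Nat.add_sub_cancel, mul_pow, ← hmain, hv]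
    push_cast
    ring

/-- The descent step. -/
lemma descent [IsBezout R] (S : Setting R p ζ) {M : ℕ} (hM : 1 ≤ M) {a b c' : R}
    {u : Rˣ} (hb : ¬ ζ - 1 ∣ b) (hc' : ¬ ζ - 1 ∣ c') (hab : IsCoprime a b)
    (H : a ^ p + b ^ p = u * ((ζ - 1) ^ M * c') ^ p) :
    2 ≤ M ∧ ∃ (a₁ b₁ c₁ : R) (u₁ : Rˣ), ¬ ζ - 1 ∣ a₁ ∧ ¬ ζ - 1 ∣ b₁ ∧ ¬ ζ - 1 ∣ c₁ ∧
      IsCoprime a₁ b₁ ∧ a₁ ^ p + b₁ ^ p = u₁ * ((ζ - 1) ^ (M - 1) * c₁) ^ p := by
  have hdvd : ζ - 1 ∣ a ^ p + b ^ p := by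
    rw [H]
    have h1 : ζ - 1 ∣ ((ζ - 1) ^ M * c') ^ p :=
      dvd_pow (Dvd.dvd.mul_right (dvd_pow_self (ζ - 1) (by omega)) c') S.pos.ne'
    exact Dvd.dvd.mul_left h1 _
  obtain ⟨η₀, hη₀, h2⟩ := S.exists_sq_dvd_factor hb hdvd
  have hunit : IsUnit η₀ := S.isUnit_of_mem hη₀
  have hb₀ : ¬ ζ - 1 ∣ η₀ * b := fun h => hb ((hunit.dvd_mul_left).1 h)
  have hab₀ : IsCoprime a (η₀ * b) := (isCoprime_mul_unit_left_right hunit a b).2 hab
  have H₀ : a ^ p + (η₀ * b) ^ p = u * ((ζ - 1) ^ M * c') ^ p := by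
    rw [mul_pow, S.mem_roots_iff.1 hη₀, one_mul, H]
  exact S.descent_of_sq_dvd hM hb₀ hc' hab₀ H₀ h2

/-- **Case II, generalised equation**: there is no solution of
`a ^ p + b ^ p = u * ((ζ - 1) ^ M * c') ^ p` with `1 ≤ M`, `ζ - 1 ∤ b`, `ζ - 1 ∤ c'` and
`a`, `b` coprime. -/
theorem no_solution [IsBezout R] (S : Setting R p ζ) (M : ℕ) (hM : 1 ≤ M) (a b c' : R)
    (u : Rˣ) (hb : ¬ ζ - 1 ∣ b) (hc' : ¬ ζ - 1 ∣ c') (hab : IsCoprime a b)
    (H : a ^ p + b ^ p = u * ((ζ - 1) ^ M * c') ^ p) : False := by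
  induction M using Nat.strong_induction_on generalizing a b c' u with
  | _ M ih =>
    obtain ⟨hM2, a₁, b₁, c₁, u₁, -, hb₁, hc₁, hab₁, H₁⟩ := S.descent hM hb hc' hab H
    exact ih (M - 1) (by omega) (by omega) a₁ b₁ c₁ u₁ hb₁ hc₁ hab₁ H₁

/-- **Case II** for rational integers, in the abstract setting: if `a ^ p + b ^ p = c ^ p` with
`a`, `b` coprime integers, `c ≠ 0` and `p ∣ c`, we get a contradiction. -/
theorem caseII_int [IsBezout R] [WfDvdMonoid R] [CharZero R] (S : Setting R p ζ) {a b c : ℤ}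
    (h : a ^ p + b ^ p = c ^ p) (hab : IsCoprime a b) (hc : c ≠ 0) (hpc : (p : ℤ) ∣ c) :
    False := by
  have hp0 := S.pos
  have hpint : Prime (p : ℤ) := Nat.prime_iff_prime_int.1 S.prime
  -- `p ∤ b`
  have hpb : ¬ (p : ℤ) ∣ b := by
    intro hb
    have h1 : (p : ℤ) ∣ a ^ p := by
      have h2 : a ^ p = c ^ p - b ^ p := by rw [← h]; ring
      rw [h2]
      exact dvd_sub (dvd_pow hpc hp0.ne') (dvd_pow hb hp0.ne')
    have ha : (p : ℤ) ∣ a := hpint.dvd_of_dvd_pow h1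
    exact hpint.not_isUnit (hab.isUnit_of_dvd' ha hb)
  have hbR : ¬ ζ - 1 ∣ ((b : ℤ) : R) := fun hd => hpb (S.dvd_int b hd)
  have hcR : ((c : ℤ) : R) ≠ 0 := by exact_mod_cast hc
  obtain ⟨M, c', hc', hcM⟩ := WfDvdMonoid.max_power_factor hcR S.lam_prime.irreducible
  have hM : 1 ≤ M := by
    by_contra hM0
    have hM0' : M = 0 := by omega
    rw [hM0', pow_zero, one_mul] at hcM
    apply hc'
    rw [← hcM]
    obtain ⟨m, rfl⟩ := hpc
    push_cast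
    exact Dvd.dvd.mul_right S.lam_dvd_p _
  have habR : IsCoprime ((a : ℤ) : R) ((b : ℤ) : R) := by
    obtain ⟨r, s, hrs⟩ := hab
    exact ⟨(r : R), (s : R), by exact_mod_cast congrArg (Int.cast : ℤ → R) hrs⟩
  have HR : ((a : ℤ) : R) ^ p + ((b : ℤ) : R) ^ p = ((1 : Rˣ) : R) * ((ζ - 1) ^ M * c') ^ p := by
    rw [← hcM, Units.val_one, one_mul]
    exact_mod_cast congrArg (Int.cast : ℤ → R) h
  exact S.no_solution M hM _ _ c' 1 hbR hc' habR HR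

end Setting


end Fermat.Agent.S11.H59
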